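import Mathlib
import Fermat.Agent.LT.T7.B981.PairBaseSpec

/-!
# Row LT, tower T7, node T7.L2.1.H2a.A.0 `BaseAC981`, leaf A.0.W `DnGoodC981` (helper34)

OFF-MAIN.  `dnGoodC34 K K' : B981.DnGoodC981 K K'`, VERBATIM vs helper981
`T7/B981/PairBaseSpec.lean` (sha256 cfa0d9f73f18ec34), UNCONDITIONAL.  Complete proof, nothing
assumed, new names only.

Proof.  The pair `(D.crdDn, D.dn 𝔫)` is the sum over `Fin D.N` (coefficients `1`) of the pure
pairs `(pureCoordM (A i) (β i), pureFnM (f₀ i) (F i))`, hence a member of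
`T3.M.pairSpanM K 𝔫 D.P` (`T3.M.mem_pairSpanM_sum`; local Satake pairs `sat_dn`, local Abel pairs
`test_dn`, `smooth_dn`, `abel_dn`, symmetry `symA`, `symβ`).  The coordinates telescope
(`tel_dn`) along the torus element of the frame `frame_dn`, `K` is totally complex and `B.R.μ`
is a Haar measure (`IsL2Base.frame`): `T3.M.ekOfPairM_c K` gives the test function property,
Eisenstein-killing of the function and of its adjoint, the support at `P ∪ S_∞` and operator
scalars `c₀ (z₁, z₂, m)` for the parameters `z₁ + z₂ = a`, `z₁ z₂ = b`, `b ≠ 0` on `P`.  The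
scalar of the leaf: `c a b m = c₀ (root1 (a, b)) (root2 (a, b)) m` (`T3.H732.roots_spec732`)
when `b v ≠ 0` on `P`, and `1` otherwise: if `b v = 0` for some `v ∈ P` the eigenfunction is `0`
(`T3.H732.eq_zero_of_b_eq_zero732`, `T3.inScalarUnif_u`) and both sides vanish (model:
`T3.M.ekOpExistGenM_of`).
-/

set_option autoImplicit false

open AutomorphicForm IsDedekindDomain NumberField MeasureTheory
open scoped ComplexConjugate

noncomputable section

namespace Fermat.Agent.LT.T7.B981.H34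

open Fermat.Agent.LT Fermat.Agent.LT.H556 Fermat.Agent.LT.H556.A0 Fermat.Agent.LT.T7
open Fermat.Agent.LT.T7.H305 Fermat.Agent.LT.T7.H893 Fermat.Agent.LT.T7.B981

attribute [local instance] Fermat.Agent.LT.T5.instMeasurableSpaceG

section Mem

variable {K K' : Type} [Field K] [NumberField K] [Field K'] [NumberField K']

/-- The coordinates downstairs are the sum (in the function space) of the pure coordinates. -/
theorem crdDn_eq_sum34 (D : Dat981 K K') :
    D.crdDn = ∑ i : Fin D.N, (1 : ℂ) • T3.M.pureCoordM K D.P (D.A i) (D.β i) := by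
  funext p
  rw [Finset.sum_apply]
  simp only [Pi.smul_apply, one_smul]
  rfl

/-- The function downstairs is the sum (in the function space) of the pure tensors. -/
theorem dn_eq_sum34 (D : Dat981 K K') (𝔫 : Ideal (𝓞 K)) :
    D.dn 𝔫 = ∑ i : Fin D.N, (1 : ℂ) • T3.M.pureFnM K 𝔫 D.P (D.f₀ i) (D.F i) := by
  funext g
  rw [Finset.sum_apply]
  simp only [Pi.smul_apply, one_smul]
  rfl

end Mem

variable (K K' : Type) [Field K] [NumberField K] [Field K'] [NumberField K'] [Algebra K K']

/-- **LEAF A.0.W = DOWN, PROVED.** -/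
theorem dnGoodC34 : DnGoodC981 K K' := by
  intro ℓ _hcyc hcx Φ B hB 𝔫 _h𝔫 μc hμc T₀ n m D hD
  obtain ⟨_κ₀, _hκ₀, hall⟩ := T3.M.ekOfPairM_c K hcx B.R.μ hB.frame.frame.haar μc hμc D.κc
    hD.κc_ne 𝔫 D.P D.e D.a₀ D.α hD.frame_dn
  have hmem : (D.crdDn, D.dn 𝔫) ∈ T3.M.pairSpanM K 𝔫 D.P := by
    have h := T3.M.mem_pairSpanM_sum 𝔫 D.P (Finset.univ : Finset (Fin D.N))
      (fun _ => (1 : ℂ)) D.A D.β D.f₀ D.F
      (fun i _ v => hD.symA i v) (fun i _ w => hD.symβ i w)
      (fun i _ v hv => hD.sat_dn i v hv)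
      (fun i _ w => hD.test_dn i w) (fun i _ w => hD.smooth_dn i w)
      (fun i _ w => hD.abel_dn i w)
    rw [crdDn_eq_sum34 D, dn_eq_sum34 D 𝔫]
    exact h
  obtain ⟨h1, h2, h3, h4, c, -, hop⟩ := hall D.crdDn (D.dn 𝔫) hmem hD.tel_dn
  refine ⟨h1, h2, h3, h4, ?_⟩
  classical
  refine ⟨fun a b mv => if ∃ v ∈ D.P, b v = 0 then 1 else
    c (fun v => T3.H732.root1_732 (a v) (b v)) (fun v => T3.H732.root2_732 (a v) (b v)) mv, ?_⟩
  intro φ mv hφ a b hecke g
  by_cases hb : ∃ v ∈ D.P, b v = 0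
  · simp only [if_pos hb, one_mul]
    obtain ⟨v, hv, hbv⟩ := hb
    have hecke' := hecke v hv
    rw [hbv] at hecke'
    have hzero : ∀ g : G K, φ g = 0 :=
      T3.H732.eq_zero_of_b_eq_zero732 K (T3.inScalarUnif_u K) hecke'
    rw [hzero g]
    unfold T5.Rconv
    simp only [hzero, mul_zero, integral_zero]
  · simp only [if_neg hb]
    simp only [not_exists, not_and] at hb
    exact hop φ mv hφ a b _ _ hecke (fun v _ => (T3.H732.roots_spec732 (a v) (b v)).1)
      (fun v _ => (T3.H732.roots_spec732 (a v) (b v)).2) hb g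

end Fermat.Agent.LT.T7.B981.H34

end
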